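import Fermat.Agent.GR.I.CharTheoryMk
import Fermat.Agent.GR.C.MainQbar
import Fermat.Agent.GR.S.Bridge
import Fermat.Agent.S16.Lift

/-!
# S17-FIN: finiteness of the `n`-torsion of `Pic⁰` of the modular function field over `ℂ` and over `ℚ̄`

From project GR: `GR.I.charTheory N : CharTheory N` attaches to every Kummer element `u` (`n ∣ div u`) over `ℂ` a character
`φ : Γ₀(N) → ℤ/n` (`exists_char`), unique (`unique`), multiplicative (`mul`, `inv`), and `φ = 0` implies `u` is an `n`-th power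
(`zero`).  `Γ₀(N)` is finitely generated (`S16.groupFG_Gamma0`), so there are finitely many characters.
A class `x = [D]` with `n x = 0` gives `u` with `div u = n D`; `x ↦ φ_u` is injective:
`φ_u = φ_u'` ⟹ `u/u' = w^n` ⟹ `n (D - D') = n div w` ⟹ `D - D' = div w`.
Over `ℚ̄`: `GR.C.isKummer_iota_iff`, `GR.C.kummerEquiv_iota_iff` (MainQbar) and `GR.S.bar_eq_FF`.
-/

set_option autoImplicit false

open AlgebraicCurve ModularCurve

namespace Fermat.Agent.S17

/-- generic: a classifying relation with values in a finite set bounds the `n`-torsion of `Pic⁰`. -/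
theorem fin_finite_torsion_of_classify {K F : Type*} [Field K] [Field F] [Algebra K F] (n : ℕ)
    (hn : 0 < n) {X : Type*} [Finite X] (R : F → X → Prop)
    (h1 : ∀ u : F, u ≠ 0 → (∀ v : Place K F, (n : ℤ) ∣ v.ord u) → ∃ x, R u x)
    (h2 : ∀ (u u' : F) (x : X), u ≠ 0 → u' ≠ 0 → (∀ v : Place K F, (n : ℤ) ∣ v.ord u) →
      (∀ v : Place K F, (n : ℤ) ∣ v.ord u') → R u x → R u' x → ∃ w : F, w ≠ 0 ∧ u' = u * w ^ n) :
    Finite (Pic0.torsion K F n) := by
  have key : ∀ x : Pic0.torsion K F n, ∃ (D : Divisor.degZero (K := K) (F := F)) (f : F) (c : X),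
      Pic0.mk D = x.1 ∧ f ≠ 0 ∧ (∀ v : Place K F, (n : ℤ) * (D : Divisor K F) v = v.ord f) ∧
      R f c := by
    intro x
    obtain ⟨D, hD⟩ := Pic0.mk_surjective x.1
    have hx : (n : ℤ) • x.1 = 0 := Pic0.mem_torsion.1 x.2
    have h3 : ((n : ℤ) • D) ∈ (Divisor.principal (K := K) (F := F)).addSubgroupOf
        (Divisor.degZero (K := K) (F := F)) := by
      rw [← QuotientAddGroup.eq_zero_iff]
      rw [← hD] at hx
      exact hx
    obtain ⟨f, hf0, hf⟩ := h3
    have hf' : ∀ v : Place K F, (n : ℤ) * (D : Divisor K F) v = v.ord f := by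
      intro v
      rw [← hf v]
      simp
    obtain ⟨c, hc⟩ := h1 f hf0 (fun v => ⟨_, (hf' v).symm⟩)
    exact ⟨D, f, c, hD, hf0, hf', hc⟩
  choose D f c hD hf0 hf hc using key
  refine Finite.of_injective c ?_
  intro x y hxy
  obtain ⟨w, hw0, hw⟩ := h2 (f x) (f y) (c y) (hf0 x) (hf0 y) (fun v => ⟨_, (hf x v).symm⟩)
    (fun v => ⟨_, (hf y v).symm⟩) (hxy ▸ hc x) (hc y)
  apply Subtype.ext
  rw [← hD x, ← hD y]
  refine QuotientAddGroup.eq.2 ?_
  refine ⟨w, hw0, fun v => ?_⟩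
  have h3 : (n : ℤ) * (D y : Divisor K F) v = (n : ℤ) * (D x : Divisor K F) v + n * v.ord w := by
    rw [hf y v, hf x v, hw, v.ord_mul (hf0 x) (pow_ne_zero _ hw0), ← zpow_natCast, v.ord_zpow]
  have hn' : (n : ℤ) ≠ 0 := by exact_mod_cast hn.ne'
  have h4 : (D y : Divisor K F) v = (D x : Divisor K F) v + v.ord w := by
    apply mul_left_cancel₀ hn'
    rw [h3]; ring
  simp only [AddSubgroup.coe_add, AddSubgroup.coe_neg, Finsupp.add_apply, Finsupp.neg_apply,
    AddSubgroup.subtype_apply]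
  rw [h4]; ring

theorem fin_finite_hom {G : Type*} [Group G] [hG : Group.FG G] (A : Type*) [AddCommGroup A] [Finite A] :
    Finite (Additive G →+ A) := by
  obtain ⟨S, hS⟩ := (AddGroup.fg_def (H := Additive G)).1 inferInstance
  refine Finite.of_injective (fun (φ : Additive G →+ A) (s : S) => φ s.1) ?_
  intro φ ψ h
  refine AddMonoidHom.eq_of_eqOn_dense hS ?_
  intro s hs
  exact congrFun h ⟨s, hs⟩

theorem finite_hom_Gamma0 (N : ℕ) [NeZero N] (n : ℕ) [NeZero n] :
    Finite (Additive (CongruenceSubgroup.Gamma0 N) →+ ZMod n) := by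
  have := S16.groupFG_Gamma0 N
  exact fin_finite_hom (ZMod n)

theorem fin_kummerEquiv_of_hasChar {N : ℕ} [NeZero N] {n : ℕ} [NeZero n] {U U' : LaurentSeries ℂ}
    {φ : Additive (CongruenceSubgroup.Gamma0 N) →+ ZMod n} (hU : U ≠ 0)
    (h : GR.A.HasChar N n U φ) (h' : GR.A.HasChar N n U' φ) : GR.KummerEquiv N n U U' := by
  have T := GR.I.charTheory N
  have h1 := T.mul n _ _ _ _ (T.inv n _ _ h) h'
  rw [neg_add_cancel] at h1
  obtain ⟨z, hz, hz0, hzz⟩ := T.zero n _ h1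
  refine ⟨z, hz, hz0, ?_⟩
  rw [one_mul] at hzz
  rw [← hzz, mul_inv_cancel_left₀ hU]

theorem finite_torsion_complex (N : ℕ) [NeZero N] (n : ℕ) [NeZero n] :
    Finite (Pic0.torsion ℂ (GR.FF ℂ N) n) := by
  have := finite_hom_Gamma0 N n
  have T := GR.I.charTheory N
  refine fin_finite_torsion_of_classify n (NeZero.pos n)
    (fun (u : GR.FF ℂ N) (φ : Additive (CongruenceSubgroup.Gamma0 N) →+ ZMod n) =>
      GR.A.HasChar N n (u : LaurentSeries ℂ) φ) ?_ ?_
  · intro u hu0 hu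
    obtain ⟨φ, -, hφ⟩ := T.exists_char n u ⟨by simpa using hu0, u.2, hu⟩
    exact ⟨φ, hφ⟩
  · intro u u' φ hu0 hu'0 hu hu' h h'
    obtain ⟨z, hz, hz0, hzz⟩ := fin_kummerEquiv_of_hasChar (by simpa using hu0) h h'
    refine ⟨⟨z, hz⟩, ?_, ?_⟩
    · intro h0
      exact hz0 (congrArg Subtype.val h0)
    · apply Subtype.ext
      exact hzz

theorem finite_torsion_FF_Qbar (N : ℕ) [NeZero N] (n : ℕ) [NeZero n] :
    Finite (Pic0.torsion (AlgebraicClosure ℚ) (GR.FF (AlgebraicClosure ℚ) N) n) := by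
  have := finite_hom_Gamma0 N n
  have T := GR.I.charTheory N
  let ι : AlgebraicClosure ℚ →+* ℂ := (IsAlgClosed.lift : AlgebraicClosure ℚ →ₐ[ℚ] ℂ).toRingHom
  refine fin_finite_torsion_of_classify n (NeZero.pos n)
    (fun (u : GR.FF (AlgebraicClosure ℚ) N)
      (φ : Additive (CongruenceSubgroup.Gamma0 N) →+ ZMod n) =>
      GR.A.HasChar N n (coeffMap ι (u : LaurentSeries (AlgebraicClosure ℚ))) φ) ?_ ?_
  · intro u hu0 hu
    have hK : GR.IsKummer (N := N) n (u : LaurentSeries (AlgebraicClosure ℚ)) :=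
      ⟨by simpa using hu0, u.2, hu⟩
    obtain ⟨φ, -, hφ⟩ := T.exists_char n _ ((GR.C.isKummer_iota_iff ι).2 hK)
    exact ⟨φ, hφ⟩
  · intro u u' φ hu0 hu'0 hu hu' h h'
    have hK : GR.IsKummer (N := N) n (u : LaurentSeries (AlgebraicClosure ℚ)) :=
      ⟨by simpa using hu0, u.2, hu⟩
    have h1 := fin_kummerEquiv_of_hasChar ((GR.C.isKummer_iota_iff ι).2 hK).1 h h'
    obtain ⟨z, hz, hz0, hzz⟩ := (GR.C.kummerEquiv_iota_iff ι (NeZero.pos n)).1 h1
    refine ⟨⟨z, hz⟩, ?_, ?_⟩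
    · intro h0
      exact hz0 (congrArg Subtype.val h0)
    · apply Subtype.ext
      exact hzz

theorem finite_torsion_bar (N : ℕ) [NeZero N] (n : ℕ) [NeZero n] :
    Finite (Pic0.torsion (AlgebraicClosure ℚ) (modularFunctionFieldBar N) n) := by
  rw [GR.S.bar_eq_FF]
  exact finite_torsion_FF_Qbar N n

end Fermat.Agent.S17
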